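import Mathlib

/-!
# Row LT, tower T7, leaf T7.L2.1.H2a.0 `HaarCplxC981` (registry row 2685): the MATHLIB-ONLY core
# (helper302)

OFF-MAIN, never land.  Complete proofs, nothing assumed.  ADDITIVE (new names only, suffix
`302`).  `GL₂(ℂ)` is a locally compact Hausdorff topological group (the units of the matrix
ring, which is a finite product of copies of `ℂ`), so it has a Haar measure on its Borel
`σ`-algebra.
-/

set_option autoImplicit false
set_option linter.style.haveILetI false

open MeasureTheory

namespace Fermat.Agent.LT.T7.B981.H302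

/-- The matrix ring `M₂(ℂ)` is locally compact (a finite product of copies of `ℂ`). -/
theorem locallyCompactSpace_matrix302 : LocallyCompactSpace (Matrix (Fin 2) (Fin 2) ℂ) :=
  inferInstanceAs (LocallyCompactSpace (Fin 2 → Fin 2 → ℂ))

/-- `GL₂(ℂ)` is locally compact. -/
theorem locallyCompactSpace_GL2C302 : LocallyCompactSpace (GL (Fin 2) ℂ) := by
  haveI := locallyCompactSpace_matrix302
  infer_instance

/-- **`GL₂(ℂ)` has a Haar measure on its Borel `σ`-algebra.** -/
theorem exists_haar_GL2C302 :
    ∃ μc : @Measure (GL (Fin 2) ℂ) (borel _), @Measure.IsHaarMeasure _ _ _ (borel _) μc := by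
  letI : MeasurableSpace (GL (Fin 2) ℂ) := borel _
  haveI : BorelSpace (GL (Fin 2) ℂ) := ⟨rfl⟩
  haveI := locallyCompactSpace_GL2C302
  exact ⟨Measure.haar, inferInstance⟩

end Fermat.Agent.LT.T7.B981.H302
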