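import Mathlib
import Fermat.Agent.LT.T7.B981.BaseSpec
import Fermat.Agent.LT.T7.B981.H302.HaarCplxCore

/-!
# Row LT, tower T7, leaf T7.L2.1.H2a.0 `HaarCplxC981` (registry row 2685, helper302)

OFF-MAIN, never land.  Complete proof, nothing assumed.  ADDITIVE (new names only, suffix
`302`).  Spec: `LT/T7/B981/BaseSpec.lean` (helper981@67d2c25cd, sha256 3ab0d96cf68c91f7),
byte-identical copy.

    haarCplxC302 : B981.HaarCplxC981                                   (VERBATIM)

The proof is the Mathlib-only core `H302.exists_haar_GL2C302` (`HaarCplxCore.lean`).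
-/

set_option autoImplicit false

open MeasureTheory

namespace Fermat.Agent.LT.T7.B981.H302

/-- **LEAF T7.L2.1.H2a.0 = HAAR, CLOSED**: `GL₂(ℂ)` has a Haar measure on its Borel
`σ`-algebra. -/
theorem haarCplxC302 : Fermat.Agent.LT.T7.B981.HaarCplxC981 :=
  exists_haar_GL2C302

end Fermat.Agent.LT.T7.B981.H302
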